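/-
MAZUR (Track M), package (E1)(id) (helper1), part 1: **the Kummer maps of the Tate module with values
in `J₀(N)`** and their SURJECTIVITY.

`TT = parabolicHoms ℤ_p Γ₀(N) ℤ_p` with the explicit Galois action `Alpha.alptGal p N` and Hecke
action `T1.tdmHeckeP p N` (ALPHA's explicit Tate module package).

* `mzeiKappa p N k : TT →+ JZero N` (`= alptKummer p N k` with values in `J₀(N)`);
* `mzeiKappa_tors`, `mzeiKappa_eq_zero_iff`, `mzeiKappa_eq_iff` (kernel `p^k TT`),
  `mzeiKappa_succ` (`κ_k = p • κ_{k+1}`), `mzeiKappa_smul` (`ℤ_p`-linearity),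
  `mzeiKappa_gal` (`G_ℚ`-equivariance);
* `mzeiKappa_surj` : every `y` with `p^k • y = 0` is `κ_k x` — from the divisibility of `J₀(N)(ℚ̄)`
  (package (K), `mzk_divisible`) and the completeness of the tower `tdmTowerN`.
-/
import Fermat.Agent.Lib.S33.Wire.Compat
import Fermat.Agent.Lib.Mazur.K.Main

set_option autoImplicit false
set_option linter.style.haveILetI false
set_option linter.unusedSectionVars false

namespace Fermat.Agent.Mazur

open Complex Set Filter Topology Matrix MatrixGroups CongruenceSubgroup ModularCurve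
open UpperHalfPlane hiding I
open Fermat.Agent.S24Lib ModularCurve.Period
open AlgebraicCurve Fermat.Agent.T1 Fermat.Agent.Alpha Fermat.Agent.S33W

local notation "Kbar" => AlgebraicClosure ℚ
local notation "GQ" => (AlgebraicClosure ℚ ≃ₐ[ℚ] AlgebraicClosure ℚ)

noncomputable section

variable (p : ℕ) [hp : Fact p.Prime] (N : ℕ) [NeZero N]

set_option quotPrecheck false in
local notation "TT" => ↥(parabolicHoms ℤ_[p] (Gamma0 N) ℤ_[p])

/-- **the Kummer maps** `κ_k : TT → J₀(N)` (image `J₀(N)[p^k]`, kernel `p^k TT`) -/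
def mzeiKappa (k : ℕ) : TT →+ JZero N :=
  (Submodule.subtype (Submodule.torsionBy ℤ (JZero N) ((p : ℤ) ^ k))).toAddMonoidHom.comp
    (alptKummer p N k)

theorem mzeiKappa_apply (k : ℕ) (x : TT) :
    mzeiKappa p N k x = ((alptKummer p N k x :
      ↥(Submodule.torsionBy ℤ (JZero N) ((p : ℤ) ^ k))) : JZero N) := rfl

/-- the values are `p^k`-torsion -/
theorem mzeiKappa_tors (k : ℕ) (x : TT) : p ^ k • mzeiKappa p N k x = 0 := by
  have h1 := (alptKummer p N k x).2
  rw [Submodule.mem_torsionBy_iff] at h1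
  rw [mzeiKappa_apply, ← natCast_zsmul, Nat.cast_pow]
  exact h1

/-- the kernel of `κ_k` is `p^k TT` -/
theorem mzeiKappa_eq_zero_iff (k : ℕ) (x : TT) :
    mzeiKappa p N k x = 0 ↔ ∃ w : TT, x = (p : ℤ_[p]) ^ k • w := by
  rw [← alptKummer_eq_zero_iff, mzeiKappa_apply]
  constructor
  · intro h
    exact Subtype.ext h
  · intro h
    rw [h]
    rfl

theorem mzeiKappa_eq_iff (k : ℕ) (x y : TT) :
    mzeiKappa p N k x = mzeiKappa p N k y ↔ ∃ w : TT, x - y = (p : ℤ_[p]) ^ k • w := by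
  rw [← mzeiKappa_eq_zero_iff, map_sub, sub_eq_zero]

/-- `κ_k = p • κ_{k+1}` -/
theorem mzeiKappa_succ (k : ℕ) (x : TT) :
    mzeiKappa p N k x = p • mzeiKappa p N (k + 1) x := by
  rw [mzeiKappa_apply, mzeiKappa_apply, s33w_kummer_succ, natCast_zsmul]

/-- `κ_j = p^i • κ_{j+i}` -/
theorem mzeiKappa_add (j i : ℕ) (x : TT) :
    mzeiKappa p N j x = p ^ i • mzeiKappa p N (j + i) x := by
  induction i with
  | zero => rw [pow_zero, one_smul, Nat.add_zero]
  | succ i ih =>
    rw [ih, mzeiKappa_succ p N (j + i) x, ← Nat.add_assoc, pow_succ, mul_smul]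

/-- `ℤ_p`-linearity -/
theorem mzeiKappa_smul (k : ℕ) (a : ℤ_[p]) (x : TT) :
    mzeiKappa p N k (a • x) = PadicInt.appr a k • mzeiKappa p N k x := by
  have h1 : alptKummer p N k (a • x) = PadicInt.appr a k • alptKummer p N k x := by
    unfold alptKummer
    rw [AddMonoidHom.comp_apply, (tdmTowerN p N).ι_smul, map_nsmul]
    rfl
  rw [mzeiKappa_apply, h1]
  rfl

/-- `G_ℚ`-equivariance -/
theorem mzeiKappa_gal (k : ℕ) (σ : GQ) (x : TT) :
    mzeiKappa p N k (alptGal p N σ x) = σ • mzeiKappa p N k x := by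
  rw [mzeiKappa_apply, mzeiKappa_apply, alptKummer_gal]
  rfl

/-! ### Surjectivity -/

/-- a `p`-divisible sequence above a point of `J₀(N)` -/
def mzeiDiv (y : JZero N) : ℕ → JZero N
  | 0 => y
  | n + 1 => (mzk_divisible N hp.out.ne_zero (mzeiDiv y n)).choose

theorem mzeiDiv_zero (y : JZero N) : mzeiDiv p N y 0 = y := rfl

theorem mzeiDiv_succ (y : JZero N) (n : ℕ) : p • mzeiDiv p N y (n + 1) = mzeiDiv p N y n :=
  (mzk_divisible N hp.out.ne_zero (mzeiDiv p N y n)).choose_spec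

theorem mzeiDiv_pow (y : JZero N) (n : ℕ) : p ^ n • mzeiDiv p N y n = y := by
  induction n with
  | zero => rw [pow_zero, one_smul, mzeiDiv_zero]
  | succ n ih => rw [pow_succ, mul_smul, mzeiDiv_succ, ih]

/-- **surjectivity of the Kummer maps**: `TT / p^k TT ≅ J₀(N)[p^k]` -/
theorem mzeiKappa_surj (k : ℕ) (y : JZero N) (hy : p ^ k • y = 0) :
    ∃ x : TT, mzeiKappa p N k x = y := by
  classical
  set g := mzeiDiv p N y with hg
  -- the compatible family `y_j = p^k • g j ∈ J₀(N)[p^j]`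
  have hytors : ∀ j, p ^ k • g j ∈ Submodule.torsionBy ℤ (JZero N) ((p ^ j : ℕ) : ℤ) := by
    intro j
    rw [Submodule.mem_torsionBy_iff, natCast_zsmul, smul_comm, mzeiDiv_pow, hy]
  have hsurj := fun j => alptKumX_surjective N (p ^ j) (tdm_prime_pow_ne_zero p j)
  let w : ∀ j, Additive ↥(tdmX N (p ^ j)) := fun j =>
    Additive.ofMul (Function.surjInv (hsurj j) (Multiplicative.ofAdd ⟨p ^ k • g j, hytors j⟩))
  have hw : ∀ j, ((Multiplicative.toAdd (alptKumX N (p ^ j) (tdm_prime_pow_ne_zero p j)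
      (Additive.toMul (w j))) : ↥(Submodule.torsionBy ℤ (JZero N) ((p ^ j : ℕ) : ℤ))) : JZero N)
      = p ^ k • g j := by
    intro j
    show ((Multiplicative.toAdd (alptKumX N (p ^ j) (tdm_prime_pow_ne_zero p j)
      (Function.surjInv (hsurj j) (Multiplicative.ofAdd ⟨p ^ k • g j, hytors j⟩))) :
      ↥(Submodule.torsionBy ℤ (JZero N) ((p ^ j : ℕ) : ℤ))) : JZero N) = _
    rw [Function.surjInv_eq (hsurj j)]
    rfl
  have hcompat : ∀ j, (tdmTowerN p N).π j (w (j + 1)) = w j := by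
    intro j
    apply Additive.toMul.injective
    apply alptKumX_injective N (p ^ j) (tdm_prime_pow_ne_zero p j)
    apply Multiplicative.toAdd.injective
    apply Subtype.ext
    rw [hw j]
    have h1 := s33w_kumX_pow N hp.out.ne_zero (tdm_prime_pow_ne_zero p j)
      (tdm_prime_pow_ne_zero p (j + 1)) (pow_succ' p j) (Additive.toMul (w (j + 1)))
      (Additive.toMul ((tdmTowerN p N).π j (w (j + 1)))) (by
        ext γ
        rw [tdmTowerN_π_apply]
        rfl)
    rw [h1, hw (j + 1), natCast_zsmul, smul_comm, mzeiDiv_succ]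
  obtain ⟨x, hx⟩ := (tdmTowerN p N).exists_ι_eq w hcompat
  refine ⟨x, ?_⟩
  rw [mzeiKappa_apply, alptKummer_apply, alptCast_coe, hx k, hw k, mzeiDiv_pow]

end

end Fermat.Agent.Mazur
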