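/-
MAZUR (Track M), package (E1)(id) (helper1), part 2: **Hecke equivariance of the Kummer maps**.

For a prime `ℓ ∤ N`:
`κ_k (tdmHeckeP p N (T_ℓ) x) = heckeOperatorBar N ⟨ℓ, _⟩ (κ_k x)`   (`mzeiKappa_hecke`).

Chain: `tdmHeckeP_T` (the Hecke operator on `TT` is the abstract operator of the coset system
`tdmSysT`), `tdm_ι_hom` (finite level), `TdmDict.psi_op` + `TdmDict.fn_heckeT` (the functional Hecke
operator `tkrHeckeUnits` corresponds to `homX` under the monodromy map `Ψ`), `alptKumX_psi`, and the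
Hecke bridge on Kummer classes `Delta.dlw_class_hecke`.
-/
import Fermat.Agent.Lib.Mazur.E.Id.Kappa
import Fermat.Agent.Lib.Alpha.Tate.Explicit
import Fermat.Agent.Lib.Delta.Wire.HeckeClass

set_option autoImplicit false
set_option linter.style.haveILetI false
set_option linter.unusedSectionVars false

namespace Fermat.Agent.Mazur

open Complex Set Filter Topology Matrix MatrixGroups CongruenceSubgroup ModularCurve
open UpperHalfPlane hiding I
open Fermat.Agent.S24Lib ModularCurve.Period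
open AlgebraicCurve Fermat.Agent.T1 Fermat.Agent.Alpha Fermat.Agent.S33W Fermat.Agent.Delta

local notation "Kbar" => AlgebraicClosure ℚ
local notation "GQ" => (AlgebraicClosure ℚ ≃ₐ[ℚ] AlgebraicClosure ℚ)

noncomputable section

variable (p : ℕ) [hp : Fact p.Prime] (N : ℕ) [NeZero N]

set_option quotPrecheck false in
local notation "TT" => ↥(parabolicHoms ℤ_[p] (Gamma0 N) ℤ_[p])

/-- the Kummer isomorphism `X_m → J₀(N)[m]` intertwines the abstract Hecke operator of `tdmSysT`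
with `heckeOperatorBar` -/
theorem mzei_kumX_hecke {ℓ : ℕ} (hℓ : ℓ.Prime) (hℓN : ¬ ℓ ∣ N) {m : ℕ} (hm : m ≠ 0)
    (χ : tdmX N m) :
    ((Multiplicative.toAdd (alptKumX N m hm ((tdmSysT N ℓ hℓ hℓN).homX m χ)) :
        ↥(Submodule.torsionBy ℤ (JZero N) (m : ℤ))) : JZero N) =
      heckeOperatorBar N ⟨ℓ, hℓ⟩ ((Multiplicative.toAdd (alptKumX N m hm χ) :
        ↥(Submodule.torsionBy ℤ (JZero N) (m : ℤ))) : JZero N) := by
  haveI : NeZero ℓ := ⟨hℓ.ne_zero⟩
  obtain ⟨y, rfl⟩ := (tddDescent N).psi_surjective hm χ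
  obtain ⟨h1, h2⟩ := (tddDict Kbar N).psi_op (tdmSysT N ℓ hℓ hℓN) hm (tkrHeckeUnits N ℓ)
    ((tddDict Kbar N).fn_heckeT (tddDict_toMer Kbar N) ℓ hℓ hℓN) y
  rw [← h2, alptKumX_psi, alptKumX_psi, alptKumW_coe, alptKumW_coe]
  exact (dlw_class_hecke N hℓ hℓN hm y.1 y.2 h1).symm

/-- **Hecke equivariance of the Kummer maps** -/
theorem mzeiKappa_hecke {ℓ : ℕ} (hℓ : ℓ.Prime) (hℓN : ¬ ℓ ∣ N) (k : ℕ) (x : TT) :
    mzeiKappa p N k (tdmHeckeP p N (CuspForm.heckeAlgebra.T hℓ hℓN (Set.notMem_empty ℓ)) x) =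
      heckeOperatorBar N ⟨ℓ, hℓ⟩ (mzeiKappa p N k x) := by
  have h1 : (tdmTowerN p N).ι k
      (tdmHeckeP p N (CuspForm.heckeAlgebra.T hℓ hℓN (Set.notMem_empty ℓ)) x)
      = MonoidHom.toAdditive ((tdmSysT N ℓ hℓ hℓN).homX (p ^ k)) ((tdmTowerN p N).ι k x) :=
    tdm_ι_hom p (tdmSysT N ℓ hℓ hℓN) k x _ (tdmHeckeP_T p N ℓ hℓ hℓN x)
  rw [mzeiKappa_apply, mzeiKappa_apply, alptKummer_apply, alptKummer_apply, alptCast_coe,
    alptCast_coe, h1]
  exact mzei_kumX_hecke N hℓ hℓN (tdm_prime_pow_ne_zero p k) _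

end

end Fermat.Agent.Mazur
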