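/-
MAZUR (Track M), package (E1)(id) (helper1), part 3: **complex conjugation on the Tate module, the
trace identity `tr (T ∘ c) = 0`, and the clauses (H1)–(H4) of ALPHA's explicit package**.

* `mzei_gal_conj_coe`, `mzei_gal_conj` : `alptGal p N c = -(φ ↦ φ ∘ J)`, i.e. under the base change
  isomorphism `tdmBC N ℤ_p : ℤ_p ⊗ L ≃ TT` complex conjugation is `(-wL) ⊗ 1`;
* `mzei_trace_lattice` : `tr_ℤ (tdmHecke N t ∘ wL) = 0` (Eichler–Shimura: `L ⊗ ℂ ≃ S₂ × S₂` with
  `wL ↔ (f, -g)`);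
* `mzei_trace_conj` : `tr_{ℤ_p} (tdmHeckeP p N t ∘ alptGal p N c) = 0`;
* `mzei_comm`, `mzei_cont`, `mzei_unr`, `mzei_es` : (H1)–(H4) for `(alptGal p N, tdmHeckeP p N)`.
-/
import Fermat.Agent.Lib.Mazur.E.Id.Hecke

set_option autoImplicit false
set_option linter.style.haveILetI false
set_option linter.unusedSectionVars false

namespace Fermat.Agent.Mazur

open Complex Set Filter Topology Matrix MatrixGroups CongruenceSubgroup ModularCurve
open UpperHalfPlane hiding I
open Fermat.Agent.S24Lib ModularCurve.Period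
open AlgebraicCurve Fermat.Agent.T1 Fermat.Agent.Alpha Fermat.Agent.S33W
open scoped TensorProduct

local notation "Kbar" => AlgebraicClosure ℚ
local notation "GQ" => (AlgebraicClosure ℚ ≃ₐ[ℚ] AlgebraicClosure ℚ)

noncomputable section

variable (p : ℕ) [hp : Fact p.Prime] (N : ℕ) [NeZero N]

set_option quotPrecheck false in
local notation "TT" => ↥(parabolicHoms ℤ_[p] (Gamma0 N) ℤ_[p])
local notation "𝕋" => CuspForm.heckeAlgebra N 2 (∅ : Set ℕ)

/-! ### Complex conjugation -/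

/-- complex conjugation acts on the Tate module as `φ ↦ -φ ∘ J` -/
theorem mzei_gal_conj_coe (φ : TT) :
    ((alptGal p N complexConjugation φ : TT) : Additive (Gamma0 N) →+ ℤ_[p])
      = -(charInvolution N ℤ_[p] ℤ_[p] (φ : Additive (Gamma0 N) →+ ℤ_[p])) := by
  set ψ : TT := ⟨-(charInvolution N ℤ_[p] ℤ_[p] (φ : Additive (Gamma0 N) →+ ℤ_[p])),
    (parabolicHoms ℤ_[p] (Gamma0 N) ℤ_[p]).neg_mem
      (charInvolution_mem_parabolicHoms N ℤ_[p] ℤ_[p] φ.2)⟩ with hψ
  have hconj : ∀ y : ↥(modularFunctionFieldBar N),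
      (tddDict Kbar N).fn (arithmeticRingAut (modularFunctionFieldFull N) complexConjugation y)
        = tdmConj ((tddDict Kbar N).fn y) := by
    intro y
    rw [TdmDict.fn_apply, TdmDict.fn_apply, tddDict_toMer Kbar N]
    exact tdd_toMer_conj N y
  have h1 : alptGal p N complexConjugation φ = ψ := by
    apply (tdmTowerN p N).ext_elem
    intro k
    rw [alptGal_ι, tdm_ι_conj p k φ ψ rfl, (tddDescent N).galW_apply p,
      (tddDescent N).galX_conj (tdm_prime_pow_ne_zero p k) complexConjugation hconj]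
    rfl
  rw [h1]

/-- under `tdmBC`, complex conjugation is `(-wL) ⊗ 1` -/
theorem mzei_gal_conj (x : ℤ_[p] ⊗[ℤ] ↥(tdmL N)) :
    alptGal p N complexConjugation (tdmBC N ℤ_[p] x)
      = tdmBC N ℤ_[p] ((-(tdmW N ℤ ℤ)).baseChange ℤ_[p] x) := by
  apply Subtype.ext
  rw [mzei_gal_conj_coe, LinearMap.baseChange_neg, LinearMap.neg_apply, map_neg, tdmBC_tdmW]
  rfl

/-! ### The trace identity -/

/-- `tr (t ∘ wL) = 0` on the lattice: under `Φ` the operator is `(f, g) ↦ (t f, -t g)` -/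
theorem mzei_trace_lattice (t : 𝕋) :
    LinearMap.trace ℤ ↥(tdmL N) (tdmHecke N t ∘ₗ tdmW N ℤ ℤ) = 0 := by
  have hinj : Function.Injective (algebraMap ℤ ℂ) := (algebraMap ℤ ℂ).injective_int
  apply hinj
  rw [map_zero, ← LinearMap.trace_baseChange]
  -- finite-dimensionality of the space of cusp forms
  haveI : Module.Finite ℂ (ℂ ⊗[ℤ] ↥(tdmL N)) := Module.Finite.base_change ℤ ℂ _
  haveI : Module.Finite ℂ (CuspForm (Gamma0 N) 2 × CuspForm (Gamma0 N) 2) :=
    Module.Finite.equiv (tdmPhi N).symm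
  haveI : Module.Finite ℂ (CuspForm (Gamma0 N) 2) :=
    Module.Finite.of_surjective
      (LinearMap.fst ℂ (CuspForm (Gamma0 N) 2) (CuspForm (Gamma0 N) 2)) LinearMap.fst_surjective
  set s : Module.End ℂ (CuspForm (Gamma0 N) 2) :=
    (t : Module.End ℂ (CuspForm (Gamma0 N) 2)) with hs
  have h1 : (tdmHecke N t ∘ₗ tdmW N ℤ ℤ).baseChange ℂ
      = (tdmPhi N).conj (LinearMap.prodMap s (-s)) := by
    refine LinearMap.ext fun v => ?_
    obtain ⟨⟨f, g⟩, rfl⟩ := (tdmPhi N).surjective v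
    rw [LinearMap.baseChange_comp, LinearMap.comp_apply, tdmW_spec, tdmHecke_spec,
      LinearEquiv.conj_apply_apply, LinearEquiv.symm_apply_apply]
    simp only [LinearMap.prodMap_apply, LinearMap.neg_apply, map_neg, hs]
  rw [h1, LinearMap.trace_conj', LinearMap.trace_prodMap', map_neg, add_neg_cancel]

/-- **`tr (T ∘ c) = 0` on the Tate module** -/
theorem mzei_trace_conj (t : 𝕋) :
    LinearMap.trace ℤ_[p] TT (tdmHeckeP p N t ∘ₗ alptGal p N complexConjugation) = 0 := by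
  have h1 : tdmHeckeP p N t ∘ₗ alptGal p N complexConjugation
      = (tdmBC N ℤ_[p]).conj ((tdmHecke N t ∘ₗ (-(tdmW N ℤ ℤ))).baseChange ℤ_[p]) := by
    refine LinearMap.ext fun v => ?_
    obtain ⟨x, rfl⟩ := (tdmBC N ℤ_[p]).surjective v
    rw [LinearMap.comp_apply, mzei_gal_conj, ← tdmHeckeP_he, LinearEquiv.conj_apply_apply,
      LinearEquiv.symm_apply_apply, LinearMap.baseChange_comp, LinearMap.comp_apply]
  rw [h1, LinearMap.trace_conj', LinearMap.trace_baseChange, LinearMap.comp_neg, map_neg,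
    mzei_trace_lattice, neg_zero, map_zero]

/-! ### (H1)–(H4) -/

/-- (H1) the Galois action commutes with the Hecke action -/
theorem mzei_comm (σ : GQ) (t : 𝕋) :
    alptGal p N σ * tdmHeckeP p N t = tdmHeckeP p N t * alptGal p N σ :=
  (alpt_package p N).1 σ t

/-- (H2) continuity: the action modulo `p^n` factors through a finite level -/
theorem mzei_cont (n : ℕ) : ∃ L : IntermediateField ℚ Kbar, FiniteDimensional ℚ L ∧
    ∀ σ : GQ, (∀ x ∈ L, σ x = x) → ∀ v : TT, ∃ w : TT,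
      alptGal p N σ v - v = (p : ℤ_[p]) ^ n • w :=
  (alpt_package p N).2.1 n

/-- (H3) unramified outside `N p` -/
theorem mzei_unr (q : ℕ) (hq : q.Prime) (hqN : ¬ q ∣ N) (hqp : q ≠ p)
    (P : ValuationSubring Kbar) (hP : P.LiesOverPrime q) (σ : GQ)
    (hσ : σ ∈ P.inertiaSubgroupIn ℚ) : alptGal p N σ = 1 :=
  (alpt_package p N).2.2.1 q hq hqN hqp P hP σ hσ

/-- (H4) the Eichler–Shimura relation at the Frobenius elements -/
theorem mzei_es (l : ℕ) (hl : l.Prime) (hlN : ¬ l ∣ N) (hlp : l ≠ p)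
    (A : ValuationSubring Kbar) (hA : A.LiesOverPrime l) (σ : GQ) (hσ : A.IsFrobeniusAt σ l) :
    alptGal p N σ * alptGal p N σ
      - tdmHeckeP p N (CuspForm.heckeAlgebra.T hl hlN (Set.notMem_empty l)) * alptGal p N σ
      + (l : ℤ_[p]) • (1 : Module.End ℤ_[p] TT) = 0 :=
  (alpt_package p N).2.2.2.1 l hl hlN hlp A hA σ hσ

end

end Fermat.Agent.Mazur
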